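import Mathlib
import Fermat.Prelude.Def_FLTPrelim_Ramification
import Fermat.Agent.S05lib.Inertia

/-!
# Discreteness of a valuation over `q` on a number field

Let `P` be a valuation subring of a field `Ω ⊇ ℚ` lying over the prime `q`, and `L ⊆ Ω` a finite
extension of `ℚ`.  Then the value group of `L` is infinite cyclic: there is `π ∈ L` such that the
valuation of every non-zero element of `L` is an integral power of that of `π`.
-/

set_option autoImplicit false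
set_option linter.unusedSectionVars false

namespace Fermat.Agent.S56lib.Tame

open ValuationSubring Fermat.Agent.S05lib

universe u

variable {Ω : Type u} [Field Ω] [CharZero Ω] {P : ValuationSubring Ω}

section Rational

variable {q : ℕ} (hq : q.Prime) (hP : P.LiesOverPrime q)
include hq hP

theorem val_q_pos : 0 < P.valuation (q : Ω) :=
  zero_lt_iff.mpr ((P.valuation.ne_zero_iff).mpr (Nat.cast_ne_zero.mpr hq.ne_zero))

theorem val_q_ne_one : P.valuation (q : Ω) ≠ 1 := (val_prime_lt_one hP).ne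

theorem val_natCast_eq_pow {m : ℕ} (hm : m ≠ 0) :
    ∃ n : ℤ, P.valuation (m : Ω) = P.valuation (q : Ω) ^ n := by
  obtain ⟨e, m', hm', rfl⟩ := Nat.exists_eq_pow_mul_and_not_dvd hm q hq.ne_one
  refine ⟨e, ?_⟩
  push_cast
  rw [map_mul, map_pow, val_natCast_eq_one_of_not_dvd hq hP hm', mul_one, zpow_natCast]

theorem val_intCast_eq_pow {m : ℤ} (hm : m ≠ 0) :
    ∃ n : ℤ, P.valuation (m : Ω) = P.valuation (q : Ω) ^ n := by
  have hm' : m.natAbs ≠ 0 := Int.natAbs_ne_zero.mpr hm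
  obtain ⟨n, hn⟩ := val_natCast_eq_pow hq hP hm'
  refine ⟨n, ?_⟩
  rcases Int.natAbs_eq m with h | h
  · rw [← hn]
    conv_lhs => rw [h]
    simp
  · rw [← hn]
    conv_lhs => rw [h]
    simp

theorem val_ratCast_eq_pow {a : ℚ} (ha : a ≠ 0) :
    ∃ n : ℤ, P.valuation (a : Ω) = P.valuation (q : Ω) ^ n := by
  obtain ⟨n₁, h₁⟩ := val_intCast_eq_pow hq hP (Rat.num_ne_zero.mpr ha)
  obtain ⟨n₂, h₂⟩ := val_natCast_eq_pow hq hP a.den_ne_zero
  refine ⟨n₁ - n₂, ?_⟩
  rw [Rat.cast_def, map_div₀, h₁, h₂, zpow_sub₀ (val_q_pos hq hP).ne']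

end Rational

section Sum

/-- A vanishing non-empty sum of non-zero terms has two terms of equal valuation. -/
theorem exists_val_eq_of_sum_eq_zero {ι : Type*} [DecidableEq ι] (t : Finset ι) (ht : t.Nonempty)
    (f : ι → Ω) (hf : ∀ i ∈ t, f i ≠ 0) (hsum : ∑ i ∈ t, f i = 0) :
    ∃ i ∈ t, ∃ j ∈ t, i ≠ j ∧ P.valuation (f i) = P.valuation (f j) := by
  obtain ⟨j, hj, hmax⟩ := Finset.exists_max_image t (fun i => P.valuation (f i)) ht
  by_contra hcon
  have hlt : ∀ i ∈ t \ {j}, P.valuation (f i) < P.valuation (f j) := by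
    intro i hi
    rw [Finset.mem_sdiff, Finset.mem_singleton] at hi
    refine lt_of_le_of_ne (hmax i hi.1) fun heq => hcon ⟨i, hi.1, j, hj, hi.2, heq⟩
  have := Valuation.map_sum_eq_of_lt P.valuation hj hlt
  rw [hsum, map_zero] at this
  exact (P.valuation.ne_zero_iff).mpr (hf j hj) this.symm

end Sum

theorem pow_sub_eq_of_mul_pow_eq {Γ : Type*} [LinearOrderedCommGroupWithZero Γ] {a b X : Γ}
    (hb : b ≠ 0) (hX : X ≠ 0) {i j : ℕ} (hij : i < j) (h : a * X ^ i = b * X ^ j) :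
    X ^ (j - i) = a / b := by
  have hXi : X ^ i ≠ 0 := pow_ne_zero i hX
  have e : X ^ j = X ^ (j - i) * X ^ i := by rw [← pow_add, Nat.sub_add_cancel hij.le]
  rw [e, ← mul_assoc] at h
  have h2 := mul_right_cancel₀ hXi h
  rw [h2, mul_div_cancel_left₀ _ hb]

section Power

variable [Algebra ℚ Ω] {q : ℕ} (hq : q.Prime) (hP : P.LiesOverPrime q)
  (L : IntermediateField ℚ Ω) [FiniteDimensional ℚ L]
include hq hP

/-- Some power `v x ^ m`, `1 ≤ m ≤ [L : ℚ]`, lies in the value group of `ℚ`. -/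
theorem exists_pow_val_eq {x : Ω} (hx : x ∈ L) (hx0 : x ≠ 0) :
    ∃ m : ℕ, 0 < m ∧ m ≤ Module.finrank ℚ L ∧
      ∃ n : ℤ, P.valuation x ^ m = P.valuation (q : Ω) ^ n := by
  classical
  set d := Module.finrank ℚ L with hd
  let w : Fin (d + 1) → L := fun i => (⟨x, hx⟩ : L) ^ (i : ℕ)
  have hnot : ¬ LinearIndependent ℚ w := by
    intro hli
    have := hli.fintype_card_le_finrank
    rw [Fintype.card_fin] at this
    omega
  obtain ⟨g, hsum, i₀, hi₀⟩ := Fintype.not_linearIndependent_iff.mp hnot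
  let f : Fin (d + 1) → Ω := fun i => (g i : Ω) * x ^ (i : ℕ)
  have hsumΩ : ∑ i, f i = 0 := by
    have := congrArg (fun y : L => (y : Ω)) hsum
    simp only [IntermediateField.coe_sum, ZeroMemClass.coe_zero] at this
    rw [← this]
    refine Finset.sum_congr rfl fun i _ => ?_
    simp only [f, w, IntermediateField.coe_smul, SubmonoidClass.coe_pow]
    rw [Algebra.smul_def, eq_ratCast]
  set t : Finset (Fin (d + 1)) := Finset.univ.filter fun i => g i ≠ 0 with ht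
  have htne : t.Nonempty := ⟨i₀, by simp [ht, hi₀]⟩
  have hft : ∀ i ∈ t, f i ≠ 0 := by
    intro i hi
    rw [ht, Finset.mem_filter] at hi
    exact mul_ne_zero (Rat.cast_ne_zero.mpr hi.2) (pow_ne_zero _ hx0)
  have hsumt : ∑ i ∈ t, f i = 0 := by
    rw [← hsumΩ, ht]
    refine Finset.sum_filter_of_ne fun i _ hfi => ?_
    intro hgi
    apply hfi
    change (g i : Ω) * x ^ (i : ℕ) = 0
    rw [hgi, Rat.cast_zero, zero_mul]
  obtain ⟨i, hi, j, hj, hij, hv⟩ := exists_val_eq_of_sum_eq_zero (P := P) t htne f hft hsumt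
  rw [ht, Finset.mem_filter] at hi hj
  obtain ⟨ni, hni⟩ := val_ratCast_eq_pow (Ω := Ω) hq hP hi.2
  obtain ⟨nj, hnj⟩ := val_ratCast_eq_pow (Ω := Ω) hq hP hj.2
  have hγ : P.valuation (q : Ω) ≠ 0 := (val_q_pos hq hP).ne'
  have hvx : P.valuation x ≠ 0 := (P.valuation.ne_zero_iff).mpr hx0
  change P.valuation ((g i : Ω) * x ^ (i : ℕ)) = P.valuation ((g j : Ω) * x ^ (j : ℕ)) at hv
  rw [map_mul, map_mul, map_pow, map_pow, hni, hnj] at hv
  have hijn : (i : ℕ) ≠ (j : ℕ) := fun h => hij (Fin.ext h)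
  rcases lt_or_gt_of_ne hijn with h | h
  · refine ⟨j - i, by omega, by have := j.2; omega, ni - nj, ?_⟩
    rw [pow_sub_eq_of_mul_pow_eq (zpow_ne_zero _ hγ) hvx h hv, zpow_sub₀ hγ]
  · refine ⟨i - j, by omega, by have := i.2; omega, nj - ni, ?_⟩
    rw [pow_sub_eq_of_mul_pow_eq (zpow_ne_zero _ hγ) hvx h hv.symm, zpow_sub₀ hγ]

/-- A uniform exponent. -/
theorem exists_uniform_pow_val_eq :
    ∃ e : ℕ, 0 < e ∧ ∀ x ∈ L, x ≠ 0 →
      ∃ n : ℤ, P.valuation x ^ e = P.valuation (q : Ω) ^ n := by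
  refine ⟨(Module.finrank ℚ L).factorial, Nat.factorial_pos _, fun x hx hx0 => ?_⟩
  obtain ⟨m, hm0, hmd, n, hn⟩ := exists_pow_val_eq hq hP L hx hx0
  obtain ⟨k, hk⟩ := Nat.dvd_factorial hm0 hmd
  refine ⟨n * k, ?_⟩
  rw [hk, pow_mul, hn, zpow_mul, zpow_natCast]

/-- **Discreteness**: the value group of `L` is generated by the valuation of some `π ∈ L`. -/
theorem exists_uniformizer :
    ∃ π ∈ L, π ≠ 0 ∧ ∀ x ∈ L, x ≠ 0 → ∃ n : ℤ, P.valuation x = P.valuation π ^ n := by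
  obtain ⟨e, he, hpow⟩ := exists_uniform_pow_val_eq hq hP L
  have hγ : P.valuation (q : Ω) ≠ 0 := (val_q_pos hq hP).ne'
  let S : AddSubgroup ℤ :=
    { carrier := {n | ∃ x ∈ L, x ≠ 0 ∧ P.valuation x ^ e = P.valuation (q : Ω) ^ n}
      zero_mem' := ⟨1, L.one_mem, one_ne_zero, by simp⟩
      add_mem' := by
        rintro a b ⟨x, hx, hx0, hxa⟩ ⟨y, hy, hy0, hyb⟩
        refine ⟨x * y, L.mul_mem hx hy, mul_ne_zero hx0 hy0, ?_⟩
        rw [map_mul, mul_pow, hxa, hyb, zpow_add₀ hγ]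
      neg_mem' := by
        rintro a ⟨x, hx, hx0, hxa⟩
        refine ⟨x⁻¹, L.inv_mem hx, inv_ne_zero hx0, ?_⟩
        rw [map_inv₀, inv_pow, hxa, zpow_neg] }
  obtain ⟨d, hd⟩ := Int.subgroup_cyclic S
  have hdS : d ∈ S := by
    rw [hd]
    exact AddSubgroup.subset_closure rfl
  obtain ⟨π, hπL, hπ0, hπ⟩ := hdS
  refine ⟨π, hπL, hπ0, fun x hx hx0 => ?_⟩
  obtain ⟨n, hn⟩ := hpow x hx hx0
  have hnS : n ∈ S := ⟨x, hx, hx0, hn⟩
  rw [hd] at hnS
  obtain ⟨k, hk⟩ := AddSubgroup.mem_closure_singleton.mp hnS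
  refine ⟨k, ?_⟩
  have h1 : P.valuation x ^ e = (P.valuation π ^ k) ^ e := by
    rw [hn, ← hk, smul_eq_mul, mul_comm, zpow_mul, ← hπ, ← zpow_natCast, ← zpow_natCast,
      ← zpow_mul, ← zpow_mul, mul_comm]
  exact (pow_left_inj₀ zero_le zero_le he.ne').mp h1

end Power

end Fermat.Agent.S56lib.Tame
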