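import Mathlib
import Fermat.Prelude.Def_FLTPrelim_Ramification
import Fermat.Agent.S05lib.Inertia

/-!
# Tame inertia: the character `θ_π`

For a valuation subring `A` of `Ω` (over a base field `K`), `σ` in the inertia group and `π ≠ 0`
with `v (σ π) = v π`, the class of `σ π / π` in the residue field is multiplicative in `σ`.
An automorphism `σ` is *wild* on `x ≠ 0` if `v (σ x - x) < v x`.
-/

set_option autoImplicit false
set_option linter.unusedSectionVars false

namespace Fermat.Agent.S56lib.Tame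

open ValuationSubring IsLocalRing Fermat.Agent.S05lib
open scoped Pointwise

universe u

variable {K : Type*} {Ω : Type u} [Field K] [Field Ω] [Algebra K Ω] (A : ValuationSubring Ω)

open Classical in
/-- The reduction map `A → κ`, extended by zero to `Ω`. -/
noncomputable def resid (y : Ω) : ResidueField A :=
  if h : y ∈ A then residue A ⟨y, h⟩ else 0

theorem resid_of_mem {y : Ω} (h : y ∈ A) : resid A y = residue A ⟨y, h⟩ := dif_pos h

theorem resid_one : resid A 1 = 1 := by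
  rw [resid_of_mem A A.one_mem]
  exact map_one _

theorem resid_mul {y z : Ω} (hy : y ∈ A) (hz : z ∈ A) :
    resid A (y * z) = resid A y * resid A z := by
  rw [resid_of_mem A hy, resid_of_mem A hz, resid_of_mem A (A.mul_mem _ _ hy hz), ← map_mul]
  rfl

theorem resid_eq_resid_iff {y z : Ω} (hy : y ∈ A) (hz : z ∈ A) :
    resid A y = resid A z ↔ A.valuation (y - z) < 1 := by
  rw [resid_of_mem A hy, resid_of_mem A hz, ← sub_eq_zero, ← map_sub, residue_eq_zero_iff,
    A.valuation_lt_one_iff]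
  rfl

theorem mem_of_val_eq_one {y : Ω} (h : A.valuation y = 1) : y ∈ A :=
  (A.valuation_le_one_iff y).mp h.le

section Inertia

variable {A}

theorem val_lt_one_iff {σ : Ω ≃ₐ[K] Ω} (hσ : σ ∈ A.inertiaSubgroupIn K) (y : Ω) :
    A.valuation (σ y) < 1 ↔ A.valuation y < 1 := by
  rcases eq_or_ne y 0 with rfl | hy
  · simp
  · have hσy : σ y ≠ 0 := by simpa using hy
    have h1 : 0 < A.valuation y := zero_lt_iff.mpr ((A.valuation.ne_zero_iff).mpr hy)
    have h2 : 0 < A.valuation (σ y) := zero_lt_iff.mpr ((A.valuation.ne_zero_iff).mpr hσy)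
    rw [← one_lt_inv₀ h1, ← one_lt_inv₀ h2, ← map_inv₀, ← map_inv₀, ← map_inv₀, ← not_le, ← not_le,
      inertia_val_le_one_iff A hσ]

/-- `σ` in the inertia group preserves strict inequalities of valuations. -/
theorem val_lt_of_lt {σ : Ω ≃ₐ[K] Ω} (hσ : σ ∈ A.inertiaSubgroupIn K) {a b : Ω}
    (h : A.valuation a < A.valuation b) : A.valuation (σ a) < A.valuation (σ b) := by
  have hb : b ≠ 0 := by
    rintro rfl
    rw [map_zero] at h
    exact not_lt_zero h
  have hvb : A.valuation b ≠ 0 := (A.valuation.ne_zero_iff).mpr hb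
  have hσb : σ b ≠ 0 := by simpa using hb
  have hvσb : A.valuation (σ b) ≠ 0 := (A.valuation.ne_zero_iff).mpr hσb
  have h1 : A.valuation (a / b) < 1 := by
    rw [map_div₀]
    exact (div_lt_one₀ (zero_lt_iff.mpr hvb)).mpr h
  have h3 : A.valuation (σ (a / b)) < 1 := (val_lt_one_iff hσ _).mpr h1
  rw [map_div₀, map_div₀] at h3
  exact (div_lt_one₀ (zero_lt_iff.mpr hvσb)).mp h3

theorem val_pow_apply_lt {σ : Ω ≃ₐ[K] Ω} (hσ : σ ∈ A.inertiaSubgroupIn K) {x : Ω}
    (h : A.valuation (σ x) < A.valuation x) :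
    ∀ n : ℕ, A.valuation ((σ ^ (n + 1)) x) < A.valuation x
  | 0 => by simpa using h
  | n + 1 => by
    have ih := val_pow_apply_lt hσ h n
    have h1 := val_lt_of_lt hσ ih
    rw [pow_succ' σ (n + 1), AlgEquiv.mul_apply]
    exact h1.trans h

theorem val_pow_apply_gt {σ : Ω ≃ₐ[K] Ω} (hσ : σ ∈ A.inertiaSubgroupIn K) {x : Ω}
    (h : A.valuation x < A.valuation (σ x)) :
    ∀ n : ℕ, A.valuation x < A.valuation ((σ ^ (n + 1)) x)
  | 0 => by simpa using h
  | n + 1 => by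
    have ih := val_pow_apply_gt hσ h n
    have h1 := val_lt_of_lt hσ ih
    rw [pow_succ' σ (n + 1), AlgEquiv.mul_apply]
    exact h.trans h1

/-- On an element with finite orbit, `σ` preserves the valuation. -/
theorem val_apply_eq_of_periodic {σ : Ω ≃ₐ[K] Ω} (hσ : σ ∈ A.inertiaSubgroupIn K) {x : Ω}
    {N : ℕ} (hN : N ≠ 0) (hx : (σ ^ N) x = x) : A.valuation (σ x) = A.valuation x := by
  obtain ⟨n, rfl⟩ := Nat.exists_eq_succ_of_ne_zero hN
  rcases lt_trichotomy (A.valuation (σ x)) (A.valuation x) with h | h | h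
  · have := val_pow_apply_lt hσ h n
    rw [Nat.succ_eq_add_one] at hx
    rw [hx] at this
    exact absurd this (lt_irrefl _)
  · exact h
  · have := val_pow_apply_gt hσ h n
    rw [Nat.succ_eq_add_one] at hx
    rw [hx] at this
    exact absurd this (lt_irrefl _)

/-- A unit quotient: `σ x / x` has valuation one. -/
theorem val_div_eq_one {σ : Ω ≃ₐ[K] Ω} {x : Ω} (hx : x ≠ 0)
    (h : A.valuation (σ x) = A.valuation x) : A.valuation (σ x / x) = 1 := by
  rw [map_div₀, h]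
  exact div_self ((A.valuation.ne_zero_iff).mpr hx)

/-- The tame character attached to `π`: `σ ↦ σ π / π mod 𝔪`. -/
noncomputable def theta (π : Ω) (hπ0 : π ≠ 0)
    (hπ : ∀ σ ∈ A.inertiaSubgroupIn K, A.valuation (σ π) = A.valuation π) :
    ↥(A.inertiaSubgroupIn K) →* ResidueField A where
  toFun σ := resid A ((σ : Ω ≃ₐ[K] Ω) π / π)
  map_one' := by
    change resid A ((1 : Ω ≃ₐ[K] Ω) π / π) = 1
    rw [AlgEquiv.one_apply, div_self hπ0, resid_one]
  map_mul' σ τ := by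
    change resid A (((σ : Ω ≃ₐ[K] Ω) * (τ : Ω ≃ₐ[K] Ω)) π / π)
      = resid A ((σ : Ω ≃ₐ[K] Ω) π / π) * resid A ((τ : Ω ≃ₐ[K] Ω) π / π)
    set s : Ω ≃ₐ[K] Ω := σ.1 with hs
    set t : Ω ≃ₐ[K] Ω := τ.1 with ht
    have hsI : s ∈ A.inertiaSubgroupIn K := σ.2
    have htI : t ∈ A.inertiaSubgroupIn K := τ.2
    have ha : t π / π ∈ A := mem_of_val_eq_one A (val_div_eq_one hπ0 (hπ t htI))
    have hb : s π / π ∈ A := mem_of_val_eq_one A (val_div_eq_one hπ0 (hπ s hsI))
    have hsa : s (t π / π) ∈ A := (inertia_mem_iff A hsI _).mpr ha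
    have e : (s * t) π / π = s (t π / π) * (s π / π) := by
      rw [AlgEquiv.mul_apply, map_div₀]
      have : s π ≠ 0 := by simpa using hπ0
      field_simp
    rw [e, resid_mul A hsa hb, mul_comm]
    congr 1
    rw [resid_eq_resid_iff A hsa ha]
    exact inertia_sub_lt_one A hsI ha

theorem theta_apply (π : Ω) (hπ0 : π ≠ 0)
    (hπ : ∀ σ ∈ A.inertiaSubgroupIn K, A.valuation (σ π) = A.valuation π)
    (σ : ↥(A.inertiaSubgroupIn K)) :
    theta π hπ0 hπ σ = resid A ((σ : Ω ≃ₐ[K] Ω) π / π) := rfl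

/-- The kernel of `θ_π`: `σ` is wild on `π`. -/
theorem theta_eq_one_iff (π : Ω) (hπ0 : π ≠ 0)
    (hπ : ∀ σ ∈ A.inertiaSubgroupIn K, A.valuation (σ π) = A.valuation π)
    (σ : ↥(A.inertiaSubgroupIn K)) :
    theta π hπ0 hπ σ = 1 ↔ A.valuation ((σ : Ω ≃ₐ[K] Ω) π - π) < A.valuation π := by
  have hb : (σ : Ω ≃ₐ[K] Ω) π / π ∈ A :=
    mem_of_val_eq_one A (val_div_eq_one hπ0 (hπ σ σ.2))
  rw [theta_apply, ← resid_one A, resid_eq_resid_iff A hb A.one_mem]
  have hv : 0 < A.valuation π := zero_lt_iff.mpr ((A.valuation.ne_zero_iff).mpr hπ0)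
  have e : (σ : Ω ≃ₐ[K] Ω) π / π - 1 = ((σ : Ω ≃ₐ[K] Ω) π - π) / π := by
    field_simp
  rw [e, map_div₀, div_lt_one₀ hv]

end Inertia

section Wild

/-- `σ` is wild at `x`: `v (σ x - x) < v x`. -/
def IsWildAt (σ : Ω ≃ₐ[K] Ω) (x : Ω) : Prop := A.valuation (σ x - x) < A.valuation x

variable {A}

theorem IsWildAt.ne_zero {σ : Ω ≃ₐ[K] Ω} {x : Ω} (h : IsWildAt A σ x) : x ≠ 0 := by
  rintro rfl
  unfold IsWildAt at h
  rw [map_zero, sub_zero, map_zero] at h
  exact lt_irrefl _ h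

theorem IsWildAt.val_pos {σ : Ω ≃ₐ[K] Ω} {x : Ω} (h : IsWildAt A σ x) : 0 < A.valuation x :=
  zero_lt_iff.mpr ((A.valuation.ne_zero_iff).mpr h.ne_zero)

theorem IsWildAt.val_eq {σ : Ω ≃ₐ[K] Ω} {x : Ω} (h : IsWildAt A σ x) :
    A.valuation (σ x) = A.valuation x :=
  Valuation.map_eq_of_sub_lt _ h

theorem isWildAt_one (σ : Ω ≃ₐ[K] Ω) : IsWildAt A σ 1 := by
  unfold IsWildAt
  rw [map_one, sub_self, map_zero, map_one]
  exact zero_lt_one

theorem IsWildAt.mul {σ : Ω ≃ₐ[K] Ω} {x y : Ω} (hx : IsWildAt A σ x) (hy : IsWildAt A σ y) :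
    IsWildAt A σ (x * y) := by
  have e : σ (x * y) - x * y = σ x * (σ y - y) + (σ x - x) * y := by
    rw [map_mul]; ring
  unfold IsWildAt
  rw [e, map_mul]
  refine lt_of_le_of_lt (A.valuation.map_add _ _) (max_lt ?_ ?_)
  · rw [map_mul, hx.val_eq]
    exact mul_lt_mul_of_pos_left hy hx.val_pos
  · rw [map_mul]
    exact mul_lt_mul_of_pos_right hx hy.val_pos

theorem IsWildAt.inv {σ : Ω ≃ₐ[K] Ω} {x : Ω} (hx : IsWildAt A σ x) : IsWildAt A σ x⁻¹ := by
  have hx0 := hx.ne_zero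
  have hσx0 : σ x ≠ 0 := by simpa using hx0
  have e : σ x⁻¹ - x⁻¹ = -(σ x - x) * (x⁻¹ * (σ x)⁻¹) := by
    rw [map_inv₀]
    field_simp
    ring
  unfold IsWildAt
  rw [e, map_mul, Valuation.map_neg, map_mul, map_inv₀, map_inv₀, hx.val_eq]
  have hv := hx.val_pos
  calc A.valuation (σ x - x) * ((A.valuation x)⁻¹ * (A.valuation x)⁻¹)
      < A.valuation x * ((A.valuation x)⁻¹ * (A.valuation x)⁻¹) :=
        mul_lt_mul_of_pos_right hx (mul_pos (inv_pos.mpr hv) (inv_pos.mpr hv))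
    _ = (A.valuation x)⁻¹ := by
        rw [← mul_assoc, mul_inv_cancel₀ hv.ne', one_mul]

/-- The units at which `σ` is wild form a subgroup. -/
def wildSubgroup (σ : Ω ≃ₐ[K] Ω) : Subgroup Ωˣ where
  carrier := {u | IsWildAt A σ (u : Ω)}
  one_mem' := isWildAt_one σ
  mul_mem' := fun {a b} ha hb => by
    change IsWildAt A σ ((a * b : Ωˣ) : Ω)
    rw [Units.val_mul]
    exact IsWildAt.mul ha hb
  inv_mem' := fun {a} ha => by
    change IsWildAt A σ ((a⁻¹ : Ωˣ) : Ω)
    rw [Units.val_inv_eq_inv_val]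
    exact IsWildAt.inv ha

theorem IsWildAt.zpow {σ : Ω ≃ₐ[K] Ω} {x : Ω} (hx : IsWildAt A σ x) (n : ℤ) :
    IsWildAt A σ (x ^ n) := by
  have h : Units.mk0 x hx.ne_zero ∈ wildSubgroup (A := A) σ := hx
  have := (wildSubgroup (A := A) σ).zpow_mem h n
  change IsWildAt A σ ((Units.mk0 x hx.ne_zero ^ n : Ωˣ) : Ω) at this
  rwa [Units.val_zpow_eq_zpow_val, Units.val_mk0] at this

/-- Inertia is wild at units of `A`. -/
theorem isWildAt_of_val_eq_one {σ : Ω ≃ₐ[K] Ω} (hσ : σ ∈ A.inertiaSubgroupIn K) {u : Ω}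
    (hu : A.valuation u = 1) : IsWildAt A σ u := by
  unfold IsWildAt
  rw [hu]
  exact inertia_sub_lt_one A hσ (mem_of_val_eq_one A hu)

/-- Composition of wild automorphisms. -/
theorem IsWildAt.comp {σ τ : Ω ≃ₐ[K] Ω} {x : Ω} (hτ : IsWildAt A τ x)
    (hσ : IsWildAt A σ (τ x)) : IsWildAt A (σ * τ) x := by
  have e : (σ * τ) x - x = (σ (τ x) - τ x) + (τ x - x) := by
    rw [AlgEquiv.mul_apply]; ring
  unfold IsWildAt
  rw [e]
  refine lt_of_le_of_lt (A.valuation.map_add _ _) (max_lt ?_ hτ)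
  have := hσ
  unfold IsWildAt at this
  rwa [hτ.val_eq] at this

/-- Powers of an automorphism wild on a stable set are wild on it. -/
theorem isWildAt_pow {σ : Ω ≃ₐ[K] Ω} {S : Set Ω} (hS : ∀ x ∈ S, σ x ∈ S)
    (hw : ∀ x ∈ S, IsWildAt A σ x) : ∀ (n : ℕ), ∀ x ∈ S, IsWildAt A (σ ^ n) x
  | 0 => fun x hx => by
    unfold IsWildAt
    rw [pow_zero, AlgEquiv.one_apply, sub_self, map_zero]
    exact (hw x hx).val_pos
  | n + 1 => fun x hx => by
    rw [pow_succ']
    have h1 := isWildAt_pow hS hw n x hx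
    -- `σ ^ n` maps `S` to `S`
    have hSn : ∀ (m : ℕ), ∀ y ∈ S, (σ ^ m) y ∈ S := by
      intro m
      induction m with
      | zero => intro y hy; simpa using hy
      | succ m ih =>
        intro y hy
        rw [pow_succ', AlgEquiv.mul_apply]
        exact hS _ (ih y hy)
    exact IsWildAt.comp h1 (hw _ (hSn n x hx))

/-- **Kernel of the tame character is wild** on every element whose valuation is a power of
that of `π`. -/
theorem isWildAt_of_theta_eq_one (π : Ω) (hπ0 : π ≠ 0)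
    (hπ : ∀ σ ∈ A.inertiaSubgroupIn K, A.valuation (σ π) = A.valuation π)
    (σ : ↥(A.inertiaSubgroupIn K)) (h : theta π hπ0 hπ σ = 1) {x : Ω} (n : ℤ)
    (hxn : A.valuation x = A.valuation π ^ n) : IsWildAt A (σ : Ω ≃ₐ[K] Ω) x := by
  have hπw : IsWildAt A (σ : Ω ≃ₐ[K] Ω) π := (theta_eq_one_iff π hπ0 hπ σ).mp h
  have hπn : π ^ n ≠ 0 := zpow_ne_zero n hπ0
  have hu : A.valuation (x / π ^ n) = 1 := by
    rw [map_div₀, map_zpow₀, hxn]
    exact div_self (zpow_ne_zero n ((A.valuation.ne_zero_iff).mpr hπ0))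
  have e : x = π ^ n * (x / π ^ n) := by field_simp
  rw [e]
  exact (hπw.zpow n).mul (isWildAt_of_val_eq_one σ.2 hu)

end Wild

end Fermat.Agent.S56lib.Tame
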