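import Mathlib
import Fermat.Agent.S56lib.Tame.Resid

/-!
# Wild automorphisms have `q`-power order

Let `P` be a valuation subring of `Ω ⊇ ℚ` over the prime `q`, `L ⊆ Ω` a finite normal extension of
`ℚ`, and `ρ` an automorphism of `Ω` which is wild at every non-zero element of `L`.  Then the order
of `ρ` restricted to `L` is a power of `q`.
-/

set_option autoImplicit false
set_option linter.unusedSectionVars false

namespace Fermat.Agent.S56lib.Tame

open ValuationSubring Fermat.Agent.S05lib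

local notation "Ω" => AlgebraicClosure ℚ

variable {P : ValuationSubring Ω}

section Normal

variable (L : IntermediateField ℚ Ω) [Normal ℚ L]

/-- restriction to a normal subextension -/
noncomputable def resN : (Ω ≃ₐ[ℚ] Ω) →* (L ≃ₐ[ℚ] L) := AlgEquiv.restrictNormalHom L

theorem resN_apply (σ : Ω ≃ₐ[ℚ] Ω) (x : L) : ((resN L σ x : L) : Ω) = σ (x : Ω) :=
  AlgEquiv.restrictNormal_commutes σ L x

theorem apply_mem_of_normal (σ : Ω ≃ₐ[ℚ] Ω) {x : Ω} (hx : x ∈ L) : σ x ∈ L := by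
  have := resN_apply L σ ⟨x, hx⟩
  rw [← this]
  exact SetLike.coe_mem _

theorem apply_eq_of_resN_eq_one {σ : Ω ≃ₐ[ℚ] Ω} (h : resN L σ = 1) {x : Ω} (hx : x ∈ L) :
    σ x = x := by
  have := resN_apply L σ ⟨x, hx⟩
  rw [h] at this
  exact this.symm

theorem resN_eq_one_of_apply_eq {σ : Ω ≃ₐ[ℚ] Ω} (h : ∀ x ∈ L, σ x = x) : resN L σ = 1 := by
  ext x
  rw [resN_apply L σ x]
  exact h x x.2

end Normal

section Trace

variable {q : ℕ} (hq : q.Prime) (hP : P.LiesOverPrime q)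
include hq hP

/-- The trace argument: an automorphism of prime order `ℓ ≠ q` on `L`, all of whose powers are
wild on `L`, is trivial on `L`. -/
theorem apply_eq_of_wild_of_prime_order (L : IntermediateField ℚ Ω) {ℓ : ℕ} (hℓ : ℓ.Prime)
    (hℓq : ℓ ≠ q) (ρ : Ω ≃ₐ[ℚ] Ω) (hstab : ∀ x ∈ L, ρ x ∈ L)
    (hw : ∀ i : ℕ, ∀ x ∈ L, x ≠ 0 → IsWildAt P (ρ ^ i) x)
    (hord : ∀ x ∈ L, (ρ ^ ℓ) x = x) : ∀ x ∈ L, ρ x = x := by
  intro x hx
  by_contra hne
  have hstabn : ∀ (i : ℕ), ∀ z ∈ L, (ρ ^ i) z ∈ L := by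
    intro i
    induction i with
    | zero => intro z hz; simpa using hz
    | succ i ih =>
      intro z hz
      rw [pow_succ', AlgEquiv.mul_apply]
      exact hstab _ (ih z hz)
  set y : Ω := ∑ i ∈ Finset.range ℓ, (ρ ^ i) x with hy
  have hyL : y ∈ L := L.sum_mem fun i _ => hstabn i x hx
  have hρy : ρ y = y := by
    rw [hy, map_sum]
    have e1 : ∀ i ∈ Finset.range ℓ, ρ ((ρ ^ i) x) = (ρ ^ (i + 1)) x := by
      intro i _
      rw [pow_succ', AlgEquiv.mul_apply]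
    rw [Finset.sum_congr rfl e1]
    have h1 := Finset.sum_range_succ' (fun i => (ρ ^ i) x) ℓ
    have h2 := Finset.sum_range_succ (fun i => (ρ ^ i) x) ℓ
    simp only [pow_zero, AlgEquiv.one_apply] at h1
    rw [h2, hord x hx] at h1
    exact (add_right_cancel h1).symm
  have hρny : ∀ i : ℕ, (ρ ^ i) y = y := by
    intro i
    induction i with
    | zero => simp
    | succ i ih => rw [pow_succ', AlgEquiv.mul_apply, ih, hρy]
  set x' : Ω := (ℓ : Ω) * x - y with hx'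
  have hx'L : x' ∈ L := L.sub_mem (L.mul_mem (natCast_mem L ℓ) hx) hyL
  have hℓ0 : (ℓ : Ω) ≠ 0 := Nat.cast_ne_zero.mpr hℓ.ne_zero
  have hx'0 : x' ≠ 0 := by
    intro h0
    have h1 : (ℓ : Ω) * x = y := sub_eq_zero.mp h0
    have h2 : ρ ((ℓ : Ω) * x) = (ℓ : Ω) * x := by rw [h1, hρy]
    rw [map_mul, map_natCast] at h2
    exact hne (mul_left_cancel₀ hℓ0 h2)
  have hsum0 : ∑ i ∈ Finset.range ℓ, (ρ ^ i) x' = 0 := by
    have : ∀ i ∈ Finset.range ℓ, (ρ ^ i) x' = (ℓ : Ω) * (ρ ^ i) x - y := by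
      intro i _
      rw [hx', map_sub, map_mul, map_natCast, hρny]
    rw [Finset.sum_congr rfl this, Finset.sum_sub_distrib, ← Finset.mul_sum, ← hy,
      Finset.sum_const, Finset.card_range, nsmul_eq_mul, sub_self]
  have hdecomp : (ℓ : Ω) * x' = - ∑ i ∈ Finset.range ℓ, ((ρ ^ i) x' - x') := by
    rw [Finset.sum_sub_distrib, hsum0, Finset.sum_const, Finset.card_range, nsmul_eq_mul]
    ring
  have hvx' : P.valuation x' ≠ 0 := (P.valuation.ne_zero_iff).mpr hx'0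
  have hlt : P.valuation (∑ i ∈ Finset.range ℓ, ((ρ ^ i) x' - x')) < P.valuation x' :=
    Valuation.map_sum_lt _ hvx' fun i _ => hw i x' hx'L hx'0
  have hvℓ : P.valuation (ℓ : Ω) = 1 :=
    val_natCast_eq_one_of_not_dvd hq hP fun hdvd =>
      hℓq ((Nat.prime_dvd_prime_iff_eq hq hℓ).mp hdvd).symm
  have := congrArg P.valuation hdecomp
  rw [map_mul, hvℓ, one_mul, Valuation.map_neg] at this
  rw [← this] at hlt
  exact lt_irrefl _ hlt

end Trace

section Order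

variable {q : ℕ} (hq : q.Prime) (hP : P.LiesOverPrime q)
  (L : IntermediateField ℚ Ω) [Normal ℚ L] [FiniteDimensional ℚ L]
include hq hP

/-- **Wild inertia is a `q`-group**: an automorphism wild on `L` has `q`-power order on `L`. -/
theorem orderOf_resN_eq_prime_pow (ρ : Ω ≃ₐ[ℚ] Ω) (hw : ∀ x ∈ L, x ≠ 0 → IsWildAt P ρ x) :
    ∃ a : ℕ, orderOf (resN L ρ) = q ^ a := by
  have hfin : Finite (L ≃ₐ[ℚ] L) := inferInstance
  set g := resN L ρ with hg
  have hN0 : orderOf g ≠ 0 := (orderOf_pos g).ne'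
  refine ⟨_, Nat.eq_prime_pow_of_unique_prime_dvd hN0 ?_⟩
  intro ℓ hℓ hdvd
  by_contra hℓq
  have hord : orderOf (g ^ (orderOf g / ℓ)) = ℓ := orderOf_pow_orderOf_div hN0 hdvd
  set ρ' := ρ ^ (orderOf g / ℓ) with hρ'
  have hg' : resN L ρ' = g ^ (orderOf g / ℓ) := map_pow _ _ _
  have hwn : ∀ i : ℕ, ∀ x ∈ L, x ≠ 0 → IsWildAt P (ρ' ^ i) x := by
    intro i x hx hx0
    rw [hρ', ← pow_mul]
    exact isWildAt_pow (S := {x | x ∈ L ∧ x ≠ 0})
      (fun x hx => ⟨apply_mem_of_normal L ρ hx.1, by simpa using hx.2⟩)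
      (fun x hx => hw x hx.1 hx.2) _ x ⟨hx, hx0⟩
  have hordx : ∀ x ∈ L, (ρ' ^ ℓ) x = x := by
    intro x hx
    apply apply_eq_of_resN_eq_one L _ hx
    have h2 := pow_orderOf_eq_one (g ^ (orderOf g / ℓ))
    rw [hord] at h2
    rw [map_pow, hg']
    exact h2
  have htriv := apply_eq_of_wild_of_prime_order hq hP L hℓ hℓq ρ'
    (fun x hx => apply_mem_of_normal L ρ' hx) hwn hordx
  have h1 : g ^ (orderOf g / ℓ) = 1 := by
    rw [← hg']
    exact resN_eq_one_of_apply_eq L htriv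
  rw [h1, orderOf_one] at hord
  exact hℓ.one_lt.ne hord

/-- The `q ^ a`-th power of a wild automorphism fixes `L` pointwise. -/
theorem exists_pow_fixes_of_wild (ρ : Ω ≃ₐ[ℚ] Ω) (hw : ∀ x ∈ L, x ≠ 0 → IsWildAt P ρ x) :
    ∃ a : ℕ, ∀ x ∈ L, (ρ ^ q ^ a) x = x := by
  obtain ⟨a, ha⟩ := orderOf_resN_eq_prime_pow hq hP L ρ hw
  refine ⟨a, fun x hx => apply_eq_of_resN_eq_one L ?_ hx⟩
  rw [map_pow, ← ha]
  exact pow_orderOf_eq_one _

end Order

end Fermat.Agent.S56lib.Tame
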