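import Mathlib
import Fermat.Agent.S56lib.Tame.Discrete
import Fermat.Agent.S56lib.Tame.Wild
import Fermat.Agent.S55lib.Iface.Unr

/-!
# Tame inertia is cyclic

Let `P` be a valuation subring of `ℚ̄` over the prime `q` and `f : G_ℚ → M` a homomorphism which
factors through a finite extension.  If `f` maps the inertia group `I_P` to elements of `p`-power
order, `p ≠ q`, then `f (I_P)` is generated by one element: there is `τ ∈ I_P` such that every
`f σ`, `σ ∈ I_P`, is a power of `f τ`.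
-/

set_option autoImplicit false
set_option linter.unusedSectionVars false
set_option linter.style.haveILetI false

namespace Fermat.Agent.S56lib.Tame

open ValuationSubring IsLocalRing Fermat.Agent.S05lib

local notation "Ω" => AlgebraicClosure ℚ
local notation "Γℚ" => (AlgebraicClosure ℚ ≃ₐ[ℚ] AlgebraicClosure ℚ)

variable {P : ValuationSubring Ω} {q : ℕ}

section Normal

variable (L : IntermediateField ℚ Ω) [Normal ℚ L] [FiniteDimensional ℚ L]

theorem pow_card_apply (σ : Γℚ) {x : Ω} (hx : x ∈ L) :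
    (σ ^ Nat.card (L ≃ₐ[ℚ] L)) x = x := by
  apply apply_eq_of_resN_eq_one L _ hx
  rw [map_pow]
  exact pow_card_eq_one'

theorem val_apply_eq_of_mem {σ : Γℚ} (hσ : σ ∈ P.inertiaSubgroupIn ℚ) {x : Ω} (hx : x ∈ L) :
    P.valuation (σ x) = P.valuation x :=
  val_apply_eq_of_periodic hσ Nat.card_pos.ne' (pow_card_apply L σ hx)

variable (hq : q.Prime) (hP : P.LiesOverPrime q)
include hq hP

/-- **Tame inertia is cyclic**, normal level. -/
theorem exists_generator_of_normal {M : Type*} [Monoid M] (f : Γℚ →* M)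
    (hf : ∀ σ : Γℚ, (∀ x ∈ L, σ x = x) → f σ = 1) {p : ℕ} (hp : p.Prime) (hpq : p ≠ q)
    (hpgrp : ∀ σ ∈ P.inertiaSubgroupIn ℚ, ∃ n : ℕ, f σ ^ p ^ n = 1) :
    ∃ τ ∈ P.inertiaSubgroupIn ℚ, ∀ σ ∈ P.inertiaSubgroupIn ℚ, ∃ j : ℕ, f σ = f τ ^ j := by
  obtain ⟨π, hπL, hπ0, hπgen⟩ := exists_uniformizer hq hP L
  have hπ : ∀ σ ∈ P.inertiaSubgroupIn ℚ, P.valuation (σ π) = P.valuation π :=
    fun σ hσ => val_apply_eq_of_mem L hσ hπL
  set θ := theta π hπ0 hπ with hθ
  set θ' : ↥(P.inertiaSubgroupIn ℚ) →* (ResidueField P)ˣ := θ.toHomUnits with hθ'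
  let Q := ↥(P.inertiaSubgroupIn ℚ) ⧸ θ'.ker
  let ψ : Q →* ResidueField P := (Units.coeHom _).comp (QuotientGroup.kerLift θ')
  have hψinj : Function.Injective ψ :=
    Units.val_injective.comp (QuotientGroup.kerLift_injective θ')
  have hψmk : ∀ σ : ↥(P.inertiaSubgroupIn ℚ), ψ (σ : Q) = resid P ((σ : Γℚ) π / π) := by
    intro σ
    change ((QuotientGroup.kerLift θ' (σ : Q) : (ResidueField P)ˣ) : ResidueField P) = _
    rw [QuotientGroup.kerLift_mk, hθ', MonoidHom.coe_toHomUnits]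
    rfl
  have hrange : (Set.range ψ).Finite := by
    refine Set.Finite.subset
      ((Polynomial.rootSet_finite (minpoly ℚ π) Ω).image (fun y => resid P (y / π))) ?_
    rintro _ ⟨x, rfl⟩
    obtain ⟨σ, rfl⟩ := QuotientGroup.mk_surjective x
    refine ⟨(σ : Γℚ) π, ?_, (hψmk σ).symm⟩
    rw [Polynomial.mem_rootSet]
    refine ⟨minpoly.ne_zero (Algebra.IsIntegral.isIntegral π), ?_⟩
    rw [Polynomial.aeval_algHom_apply, minpoly.aeval, map_zero]
  haveI : Finite (Set.range ψ) := hrange.to_subtype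
  haveI : Finite Q := Finite.of_injective_finite_range hψinj
  haveI : IsCyclic Q := isCyclic_of_injective_ringHom ψ hψinj
  obtain ⟨g, hg⟩ := IsCyclic.exists_monoid_generator (α := Q)
  obtain ⟨τ, rfl⟩ := QuotientGroup.mk_surjective g
  refine ⟨τ, τ.2, fun σ hσ => ?_⟩
  obtain ⟨j, hj⟩ := (Submonoid.mem_powers_iff _ _).mp
    (hg ((⟨σ, hσ⟩ : ↥(P.inertiaSubgroupIn ℚ)) : Q))
  refine ⟨j, ?_⟩
  set ρ : ↥(P.inertiaSubgroupIn ℚ) := (τ ^ j)⁻¹ * ⟨σ, hσ⟩ with hρ
  have hker : ρ ∈ θ'.ker := by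
    rw [hρ, ← QuotientGroup.eq]
    exact hj
  have hθρ : θ ρ = 1 := by
    have h2 := congrArg Units.val (MonoidHom.mem_ker.mp hker)
    rwa [hθ', MonoidHom.coe_toHomUnits] at h2
  have hwild : ∀ x ∈ L, x ≠ 0 → IsWildAt P (ρ : Γℚ) x := by
    intro x hx hx0
    obtain ⟨n, hn⟩ := hπgen x hx hx0
    exact isWildAt_of_theta_eq_one π hπ0 hπ ρ hθρ n hn
  obtain ⟨a, ha⟩ := exists_pow_fixes_of_wild hq hP L (ρ : Γℚ) hwild
  have h1 : f (ρ : Γℚ) ^ q ^ a = 1 := by
    rw [← map_pow]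
    exact hf _ ha
  obtain ⟨b, hb⟩ := hpgrp (ρ : Γℚ) ρ.2
  have hρ1 : f (ρ : Γℚ) = 1 := by
    have d1 := orderOf_dvd_of_pow_eq_one h1
    have d2 := orderOf_dvd_of_pow_eq_one hb
    have hcop : Nat.Coprime (q ^ a) (p ^ b) :=
      Nat.Coprime.pow _ _ ((Nat.coprime_primes hq hp).mpr hpq.symm)
    exact orderOf_eq_one_iff.mp (Nat.eq_one_of_dvd_coprimes hcop d1 d2)
  have hσ' : σ = (τ : Γℚ) ^ j * (ρ : Γℚ) := by
    have h3 : (⟨σ, hσ⟩ : ↥(P.inertiaSubgroupIn ℚ)) = τ ^ j * ρ := by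
      rw [hρ, mul_inv_cancel_left]
    have h4 := congrArg Subtype.val h3
    simpa using h4
  rw [hσ', map_mul, map_pow, hρ1, mul_one]

end Normal

section General

variable (hq : q.Prime) (hP : P.LiesOverPrime q)
include hq hP

/-- **Tame inertia is cyclic.**  If `f` factors through a finite extension and `f (I_P)` consists
of elements of `p`-power order, `p ≠ q`, then `f (I_P)` is generated by a single `f τ`. -/
theorem exists_inertia_generator {M : Type*} [Monoid M] (f : Γℚ →* M)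
    (hf : ∃ L : IntermediateField ℚ Ω, FiniteDimensional ℚ L ∧
      ∀ σ : Γℚ, (∀ x ∈ L, σ x = x) → f σ = 1)
    {p : ℕ} (hp : p.Prime) (hpq : p ≠ q)
    (hpgrp : ∀ σ ∈ P.inertiaSubgroupIn ℚ, ∃ n : ℕ, f σ ^ p ^ n = 1) :
    ∃ τ ∈ P.inertiaSubgroupIn ℚ, ∀ σ ∈ P.inertiaSubgroupIn ℚ, ∃ j : ℕ, f σ = f τ ^ j := by
  obtain ⟨L, hL, hfL⟩ := hf
  haveI := hL
  haveI : FiniteDimensional ℚ (Fermat.Agent.S55lib.galClosure L) :=
    Fermat.Agent.S55lib.finiteDimensional_galClosure L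
  exact exists_generator_of_normal (Fermat.Agent.S55lib.galClosure L) hq hP f
    (fun σ hσ => hfL σ fun x hx => hσ x (Fermat.Agent.S55lib.le_galClosure L hx)) hp hpq hpgrp

end General

end Fermat.Agent.S56lib.Tame
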