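import Mathlib
import Fermat.Prelude.Def_ExtCitation_AdmissibleExtension
import Fermat.Agent.S55lib.Iface.RamBridge
import Fermat.Agent.S56lib.TWSel.Places

/-!
# The cyclotomic character is non-trivial on inertia at `p`

For an odd prime `p` and every valuation subring `P` of `ℚ̄` over `p` there is `σ` in the inertia
group of `P` which moves a `p`-th root of unity.  (`ℚ_p(ζ_p)` is not contained in `ℚ_p^{nr}` since
`‖1 - ζ_p‖ ^ (p - 1) = ‖p‖`.)
-/

set_option autoImplicit false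
set_option linter.unusedSectionVars false
set_option linter.style.haveILetI false

namespace Fermat.Agent.S56lib.Tame

open Fermat.Agent.S55lib
open scoped Pointwise

section Local

variable {F : Type*} [NormedField F] [IsUltrametricDist F]

theorem norm_one_sub_pow_le {x : F} (hx : ‖x‖ = 1) (k : ℕ) : ‖1 - x ^ k‖ ≤ ‖1 - x‖ := by
  rw [← mul_neg_geom_sum, norm_mul]
  have : ‖∑ i ∈ Finset.range k, x ^ i‖ ≤ 1 :=
    IsUltrametricDist.norm_sum_le_of_forall_le_of_nonneg zero_le_one fun i _ => by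
      rw [norm_pow, hx, one_pow]
  calc ‖1 - x‖ * ‖∑ i ∈ Finset.range k, x ^ i‖ ≤ ‖1 - x‖ * 1 :=
        mul_le_mul_of_nonneg_left this (norm_nonneg _)
    _ = ‖1 - x‖ := mul_one _

/-- `‖1 - ζ‖ ^ (p - 1) = ‖p‖` for a primitive `p`-th root of unity. -/
theorem norm_one_sub_primitiveRoot_pow {p : ℕ} (hp : p.Prime) {ζ : F}
    (hζ : IsPrimitiveRoot ζ p) : ‖1 - ζ‖ ^ (p - 1) = ‖(p : F)‖ := by
  obtain ⟨n, rfl⟩ : ∃ n, p = n + 1 := ⟨p - 1, (Nat.sub_add_cancel hp.one_le).symm⟩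
  have hζ1 : ‖ζ‖ = 1 := LocalUnr.norm_eq_one_of_pow_eq_one (Nat.succ_ne_zero n) hζ.pow_eq_one
  have hprod := congrArg norm hζ.prod_one_sub_pow_eq_order
  rw [norm_prod] at hprod
  have heq : ∀ j ∈ Finset.range n, ‖1 - ζ ^ (j + 1)‖ = ‖1 - ζ‖ := by
    intro j hj
    rw [Finset.mem_range] at hj
    refine le_antisymm (norm_one_sub_pow_le hζ1 _) ?_
    have hcop : (j + 1).Coprime (n + 1) := by
      refine (Nat.Coprime.symm ?_)
      exact (Nat.Prime.coprime_iff_not_dvd hp).mpr (Nat.not_dvd_of_pos_of_lt (Nat.succ_pos j) (by omega))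
    have hprim : IsPrimitiveRoot (ζ ^ (j + 1)) (n + 1) := hζ.pow_of_coprime _ hcop
    obtain ⟨i, -, hi⟩ := hprim.eq_pow_of_pow_eq_one hζ.pow_eq_one
    have h1 : ‖ζ ^ (j + 1)‖ = 1 := by rw [norm_pow, hζ1, one_pow]
    have := norm_one_sub_pow_le h1 i
    rwa [hi] at this
  rw [Finset.prod_congr rfl heq, Finset.prod_const, Finset.card_range] at hprod
  rw [Nat.add_sub_cancel, hprod]
  push_cast
  rfl

end Local

section Padic

variable (p : ℕ) [Fact p.Prime]

local notation "Ωp" => PadicAlgCl p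
local notation "Qb" => AlgebraicClosure ℚ

/-- `ζ_p ∉ ℚ_p^{nr}` for odd `p`. -/
theorem primitiveRoot_not_mem_nrField (hp2 : p ≠ 2) {ζ : Ωp} (hζ : IsPrimitiveRoot ζ p) :
    ζ ∉ nrField p := by
  intro hmem
  have hp := (Fact.out : p.Prime)
  have h1 : (1 : Ωp) - ζ ∈ nrField p := sub_mem (one_mem _) hmem
  have hne : (1 : Ωp) - ζ ≠ 0 := by
    rw [sub_ne_zero]
    exact (hζ.ne_one hp.one_lt).symm
  obtain ⟨m, hm⟩ := unramAt_nrField p _ h1 hne
  have h2 := norm_one_sub_primitiveRoot_pow hp hζ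
  rw [hm, FirstIneq.norm_natCast_padicAlgCl] at h2
  have hp1 : (1 : ℝ) < p := by exact_mod_cast hp.one_lt
  have hp0 : (0 : ℝ) < p := by linarith
  have h3 : ((p : ℝ) ^ m) ^ (p - 1) = (p : ℝ) ^ (m * ((p - 1 : ℕ) : ℤ)) := by
    rw [zpow_mul, zpow_natCast]
  rw [h3, ← zpow_neg_one] at h2
  have h4 : m * ((p - 1 : ℕ) : ℤ) = -1 := zpow_right_injective₀ hp0 hp1.ne' h2
  have h5 : ((p - 1 : ℕ) : ℤ) ∣ 1 := ⟨-m, by linarith⟩
  have h6 : p - 1 = 1 := by
    have := Int.natAbs_dvd_natAbs.mpr h5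
    simpa using this
  have := hp.two_le
  omega

/-- a local automorphism fixing the tame roots of unity and moving `ζ_p` -/
theorem exists_local_moves (hp2 : p ≠ 2) {ζ : Ωp} (hζ : IsPrimitiveRoot ζ p) :
    ∃ d : Ωp ≃ₐ[ℚ_[p]] Ωp, FixesTame p d ∧ d ζ ≠ ζ := by
  by_contra hcon
  simp only [not_exists, not_and, not_not] at hcon
  apply primitiveRoot_not_mem_nrField p hp2 hζ
  rw [← InfiniteGalois.fixedField_fixingSubgroup (nrField p), IntermediateField.mem_fixedField_iff]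
  intro d hd
  exact hcon d (fixesTame_of_mem_fixingSubgroup p hd)

theorem exists_inertia_moves_padicPlace (hp2 : p ≠ 2) :
    ∃ σ ∈ (padicPlace p).inertiaSubgroupIn ℚ, ∃ ζ : Qb, IsPrimitiveRoot ζ p ∧ σ ζ ≠ ζ := by
  haveI : NeZero p := ⟨(Fact.out : p.Prime).ne_zero⟩
  obtain ⟨ζ, hζ⟩ := HasEnoughRootsOfUnity.exists_primitiveRoot Qb p
  have hζ' : IsPrimitiveRoot (padicEmbedding p ζ) p :=
    hζ.map_of_injective (padicEmbedding p).toRingHom.injective
  obtain ⟨d, hd, hdζ⟩ := exists_local_moves p hp2 hζ'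
  refine ⟨localGaloisToGlobal p d, localGaloisToGlobal_mem_inertia p hd, ζ, hζ, fun h => ?_⟩
  apply hdζ
  rw [← padicEmbedding_localGaloisToGlobal, h]

/-- **Inertia at `p` moves `ζ_p`**, for every place of `ℚ̄` over the odd prime `p`. -/
theorem exists_inertia_moves (hp2 : p ≠ 2) (P : ValuationSubring Qb) (hP : P.LiesOverPrime p) :
    ∃ σ ∈ P.inertiaSubgroupIn ℚ, ∃ ζ : Qb, IsPrimitiveRoot ζ p ∧ σ ζ ≠ ζ := by
  obtain ⟨σ, hσ, ζ, hζ, hne⟩ := exists_inertia_moves_padicPlace p hp2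
  obtain ⟨g, rfl⟩ := TWSel.exists_smul_eq_of_liesOverPrime (Fact.out : p.Prime)
    (padicPlace_liesOverPrime p) hP
  refine ⟨g * σ * g⁻¹, conj_mem_inertiaSubgroupIn _ g σ hσ, g ζ,
    hζ.map_of_injective g.injective, fun h => hne ?_⟩
  have h1 : g (σ ζ) = g ζ := by
    have : (g * σ * g⁻¹) (g ζ) = g (σ ζ) := by
      simp [AlgEquiv.mul_apply, AlgEquiv.aut_inv]
    rw [← this, h]
  exact g.injective h1

/-- **The mod `p` cyclotomic character is non-trivial on inertia at `p`**, in any field of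
characteristic `p`. -/
theorem exists_inertia_cycloExp_ne_one (hp2 : p ≠ 2) (P : ValuationSubring Qb)
    (hP : P.LiesOverPrime p) {k : Type*} [Field k] (hpk : (p : k) = 0) :
    ∃ σ ∈ P.inertiaSubgroupIn ℚ, ((ExtCitation.cycloExp p σ : ℕ) : k) ≠ 1 := by
  obtain ⟨σ, hσ, ζ, hζ, hne⟩ := exists_inertia_moves p hp2 P hP
  refine ⟨σ, hσ, fun h1 => hne ?_⟩
  have hp := (Fact.out : p.Prime)
  haveI : NeZero p := ⟨hp.ne_zero⟩
  have hζp : ζ ^ p = 1 := hζ.pow_eq_one
  have hu : IsUnit ζ := IsUnit.of_pow_eq_one hζp hp.ne_zero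
  obtain ⟨u, rfl⟩ := hu
  have hmem : u ∈ rootsOfUnity p Qb := by
    rw [mem_rootsOfUnity]
    exact Units.ext (by simpa using hζp)
  have hact : σ (u : Qb) = (u : Qb) ^ ExtCitation.cycloExp p σ :=
    modularCyclotomicCharacter.spec Qb (ExtCitation.card_rootsOfUnity_eq_self p)
      (σ : Qb ≃+* Qb) hmem
  rw [hact]
  -- `cycloExp ≡ 1 mod p`
  haveI : CharP k p := by
    have hdvd : ringChar k ∣ p := ringChar.dvd hpk
    have : ringChar k = p := by
      rcases (Nat.dvd_prime hp).mp hdvd with h | h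
      · exact absurd (CharP.ringChar_ne_one (R := k)) (by simp [h])
      · exact h
    exact this ▸ ringChar.charP k
  have hmod : ExtCitation.cycloExp p σ ≡ 1 [MOD p] := by
    have h2 : ((ExtCitation.cycloExp p σ : ℕ) : k) = ((1 : ℕ) : k) := by rw [h1, Nat.cast_one]
    exact (CharP.natCast_eq_natCast k p).mp h2
  have : (u : Qb) ^ ExtCitation.cycloExp p σ = (u : Qb) ^ 1 := by
    rw [← Nat.mod_add_div (ExtCitation.cycloExp p σ) p, pow_add, pow_mul, hζp, one_pow, mul_one,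
      hmod, Nat.mod_eq_of_lt hp.one_lt]
  rw [this, pow_one]

end Padic

end Fermat.Agent.S56lib.Tame
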