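/-
S56lib / Tame / CEArith  (helper4).

**The arithmetic inputs of helper9's (CE-split)** for `W = ℤ_[p]`, `K = ℚ_[p]`, `Ω = PadicAlgCl p`,
`Γ = Ω ≃ₐ[K] Ω`, `I = inertiaSet p = {σ | ∀ x, ‖x‖ ≤ 1 → ‖σ x - x‖ < 1}`:

* `norm_algebraMap_padicInt_le_one`, `norm_natCast_lt_one`  : `hW`, `hp`;
* `norm_eq_zpow_of_forall_inertia`  : `hunr` (`Ω^I ⊂ ℚ_p^{nr}` has value group `‖p‖^ℤ`);
* `cycloN p`, `apply_eq_pow_cycloN`  : `n`, `hn` (`σ ζ = ζ ^ n σ` for all `ζ` with `ζ ^ p = 1`);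
* `exists_inertia_cycloN_not_modEq`  : `hω` (`p` odd);
* `ce_arith`                         : the three together, in helper9's spelling;
* `cycloN_modEq_cycloExp`, `cast_cycloN` : `n σ ≡ cycloExp p (localGaloisToGlobal p σ)  [MOD p]`, the bridge
                                       to the global mod `p` cyclotomic character.
-/
import Mathlib
import Fermat.Agent.S56lib.Tame.CycloInertia
import Fermat.Agent.S56lib.Dict.CondCocycle

set_option autoImplicit false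
set_option linter.unusedSectionVars false
set_option linter.style.haveILetI false

noncomputable section

namespace Fermat.Agent.S56lib.Tame

open Fermat.Agent.S55lib

variable (p : ℕ) [hp : Fact p.Prime]

local notation "Ωp" => PadicAlgCl p

/-- the inertia subset of `Gal(ℚ̄_p/ℚ_p)`: the automorphisms acting trivially on the residue field -/
def inertiaSet : Set (Ωp ≃ₐ[ℚ_[p]] Ωp) := {σ | ∀ x : Ωp, ‖x‖ ≤ 1 → ‖σ x - x‖ < 1}

theorem mem_inertiaSet_of_fixesTame {d : Ωp ≃ₐ[ℚ_[p]] Ωp} (hd : FixesTame p d) :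
    d ∈ inertiaSet p := fun y hy => norm_sub_lt_one_of_fixesTame p hd y hy

theorem mem_inertiaSet_of_mem_fixingSubgroup {d : Ωp ≃ₐ[ℚ_[p]] Ωp}
    (hd : d ∈ (nrField p).fixingSubgroup) : d ∈ inertiaSet p :=
  mem_inertiaSet_of_fixesTame p (fixesTame_of_mem_fixingSubgroup p hd)

/-- `hW` -/
theorem norm_algebraMap_padicInt_le_one (w : ℤ_[p]) : ‖algebraMap ℤ_[p] Ωp w‖ ≤ 1 := by
  rw [IsScalarTower.algebraMap_apply ℤ_[p] ℚ_[p] Ωp, PadicAlgCl.norm_extends]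
  exact PadicInt.norm_le_one w

/-- `hp` -/
theorem norm_natCast_lt_one : ‖(p : Ωp)‖ < 1 := by
  rw [FirstIneq.norm_natCast_padicAlgCl]
  exact inv_lt_one_of_one_lt₀ (by exact_mod_cast hp.out.one_lt)

/-- an element fixed by the inertia set lies in `ℚ_p^{nr}` -/
theorem mem_nrField_of_forall_inertia {x : Ωp} (hx : ∀ σ ∈ inertiaSet p, σ x = x) :
    x ∈ nrField p := by
  rw [← InfiniteGalois.fixedField_fixingSubgroup (nrField p), IntermediateField.mem_fixedField_iff]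
  intro d hd
  exact hx d (mem_inertiaSet_of_mem_fixingSubgroup p hd)

/-- **`hunr`**: the elements fixed by inertia have norms in `‖p‖^ℤ` -/
theorem norm_eq_zpow_of_forall_inertia (x : Ωp) (hx : ∀ σ ∈ inertiaSet p, σ x = x) :
    x = 0 ∨ ∃ n : ℤ, ‖x‖ = ‖(p : Ωp)‖ ^ n := by
  by_cases h0 : x = 0
  · exact Or.inl h0
  · right
    obtain ⟨m, hm⟩ := unramAt_nrField p x (mem_nrField_of_forall_inertia p hx) h0
    refine ⟨-m, ?_⟩
    rw [hm, FirstIneq.norm_natCast_padicAlgCl, inv_zpow, zpow_neg, inv_inv]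

/-- a chosen primitive `p`-th root of unity of `ℚ̄_p` -/
theorem exists_primitiveRoot_padicAlgCl : ∃ ζ : Ωp, IsPrimitiveRoot ζ p :=
  haveI : NeZero p := ⟨hp.out.ne_zero⟩
  HasEnoughRootsOfUnity.exists_primitiveRoot Ωp p

/-- the chosen primitive `p`-th root of unity -/
def zetaP : Ωp := (exists_primitiveRoot_padicAlgCl p).choose

theorem zetaP_spec : IsPrimitiveRoot (zetaP p) p := (exists_primitiveRoot_padicAlgCl p).choose_spec

theorem exists_apply_zetaP_eq_pow (σ : Ωp ≃ₐ[ℚ_[p]] Ωp) : ∃ k : ℕ, σ (zetaP p) = zetaP p ^ k := by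
  haveI : NeZero p := ⟨hp.out.ne_zero⟩
  have h1 : (σ (zetaP p)) ^ p = 1 := by
    rw [← map_pow, (zetaP_spec p).pow_eq_one, map_one]
  obtain ⟨k, -, hk⟩ := (zetaP_spec p).eq_pow_of_pow_eq_one h1
  exact ⟨k, hk.symm⟩

/-- **`n`**: the exponent of the mod `p` cyclotomic character on `Gal(ℚ̄_p/ℚ_p)` -/
def cycloN (σ : Ωp ≃ₐ[ℚ_[p]] Ωp) : ℕ := (exists_apply_zetaP_eq_pow p σ).choose

theorem apply_zetaP (σ : Ωp ≃ₐ[ℚ_[p]] Ωp) : σ (zetaP p) = zetaP p ^ cycloN p σ :=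
  (exists_apply_zetaP_eq_pow p σ).choose_spec

/-- **`hn`** -/
theorem apply_eq_pow_cycloN (σ : Ωp ≃ₐ[ℚ_[p]] Ωp) (ζ : Ωp) (hζ : ζ ^ p = 1) :
    σ ζ = ζ ^ cycloN p σ := by
  haveI : NeZero p := ⟨hp.out.ne_zero⟩
  obtain ⟨j, -, rfl⟩ := (zetaP_spec p).eq_pow_of_pow_eq_one hζ
  rw [map_pow, apply_zetaP, ← pow_mul, ← pow_mul, mul_comm]

/-- **`hω`**: inertia acts non-trivially on `μ_p` (`p` odd) -/
theorem exists_inertia_cycloN_not_modEq (hp2 : p ≠ 2) :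
    ∃ σ₀ ∈ inertiaSet p, ¬ cycloN p σ₀ ≡ 1 [MOD p] := by
  obtain ⟨d, hd, hdζ⟩ := exists_local_moves p hp2 (zetaP_spec p)
  refine ⟨d, mem_inertiaSet_of_fixesTame p hd, fun hmod => hdζ ?_⟩
  rw [apply_zetaP, pow_eq_pow_of_modEq hmod (zetaP_spec p).pow_eq_one, pow_one]

/-- **the arithmetic inputs of (CE-split)** in one statement -/
theorem ce_arith (hp2 : p ≠ 2) :
    (∀ w : ℤ_[p], ‖algebraMap ℤ_[p] Ωp w‖ ≤ 1) ∧ ‖(p : Ωp)‖ < 1 ∧
    (∀ x : Ωp, (∀ σ ∈ inertiaSet p, σ x = x) → x = 0 ∨ ∃ n : ℤ, ‖x‖ = ‖(p : Ωp)‖ ^ n) ∧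
    ∃ n : (Ωp ≃ₐ[ℚ_[p]] Ωp) → ℕ, (∀ σ ζ, ζ ^ p = 1 → σ ζ = ζ ^ n σ) ∧
      ∃ σ₀ ∈ inertiaSet p, ¬ n σ₀ ≡ 1 [MOD p] :=
  ⟨norm_algebraMap_padicInt_le_one p, norm_natCast_lt_one p, norm_eq_zpow_of_forall_inertia p,
    cycloN p, apply_eq_pow_cycloN p, exists_inertia_cycloN_not_modEq p hp2⟩

/-- **bridge to the global cyclotomic character**: `n σ ≡ cycloExp p (σ|ℚ̄)  [MOD p]` -/
theorem cycloN_modEq_cycloExp (σ : Ωp ≃ₐ[ℚ_[p]] Ωp) :
    cycloN p σ ≡ ExtCitation.cycloExp p (localGaloisToGlobal p σ) [MOD p] := by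
  haveI : NeZero p := ⟨hp.out.ne_zero⟩
  obtain ⟨ζ', hζ'⟩ := HasEnoughRootsOfUnity.exists_primitiveRoot (AlgebraicClosure ℚ) p
  have hζ : IsPrimitiveRoot (padicEmbedding p ζ') p :=
    hζ'.map_of_injective (padicEmbedding p).toRingHom.injective
  have h1 : σ (padicEmbedding p ζ') = padicEmbedding p ζ' ^ cycloN p σ :=
    apply_eq_pow_cycloN p σ _ hζ.pow_eq_one
  have h2 : σ (padicEmbedding p ζ') =
      padicEmbedding p ζ' ^ ExtCitation.cycloExp p (localGaloisToGlobal p σ) := by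
    rw [← padicEmbedding_localGaloisToGlobal,
      Dict.apply_root_eq_pow_cycloExp p _ ζ' (by rw [pow_one]; exact hζ'.pow_eq_one), map_pow]
  rw [h1, pow_eq_pow_mod (cycloN p σ) hζ.pow_eq_one,
    pow_eq_pow_mod (ExtCitation.cycloExp p (localGaloisToGlobal p σ)) hζ.pow_eq_one] at h2
  exact hζ.pow_inj (Nat.mod_lt _ hp.out.pos) (Nat.mod_lt _ hp.out.pos) h2

theorem cast_cycloN {k : Type*} [Ring k] [CharP k p] (σ : Ωp ≃ₐ[ℚ_[p]] Ωp) :
    ((cycloN p σ : ℕ) : k) = ((ExtCitation.cycloExp p (localGaloisToGlobal p σ) : ℕ) : k) :=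
  (CharP.natCast_eq_natCast k p).2 (cycloN_modEq_cycloExp p σ)

end Fermat.Agent.S56lib.Tame
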